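import Fermat.Agent.Petersson.Inner

/-!
# The trivial bound for a good Hecke eigenvalue is not attained

If `T_ℓ f = λ f` on `S₂(Γ₀(N))` with `|λ| = ℓ + 1` then `|f| y` would take its maximum at the points
`ℓᵏ z` for all `k`, but it vanishes at infinity.
-/

set_option autoImplicit false

noncomputable section

open UpperHalfPlane ModularGroup Matrix.SpecialLinearGroup CongruenceSubgroup Filter
open scoped MatrixGroups Modular ModularForm Topology

namespace FA.Petersson

local notation "Γ₁" => SL(2, ℤ)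

variable {N : ℕ} [NeZero N] (f : CuspForm (Gamma0 N) 2)

/-- The invariant absolute value of a form of weight two. -/
def absForm (z : ℍ) : ℝ := ‖f z‖ * z.im

omit [NeZero N] in
theorem absForm_nonneg (z : ℍ) : 0 ≤ absForm f z := mul_nonneg (norm_nonneg _) z.im_pos.le

omit [NeZero N] in
theorem sqrt_norm_petersson (z : ℍ) : Real.sqrt ‖petersson 2 f f z‖ = absForm f z := by
  have h : ‖petersson 2 f f z‖ = absForm f z * absForm f z := by
    simp only [petersson, norm_mul, Complex.norm_conj, Complex.norm_real,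
      Real.norm_of_nonneg z.im_pos.le, absForm, zpow_two]
    ring
  rw [h, Real.sqrt_mul_self (absForm_nonneg f z)]

theorem absForm_smul {γ : Γ₁} (hγ : γ ∈ Gamma0 N) (z : ℍ) : absForm f (γ • z) = absForm f z := by
  rw [← sqrt_norm_petersson, ← sqrt_norm_petersson,
    petersson_sl_smul (slash_sl_eq f hγ) (slash_sl_eq f hγ)]

omit [NeZero N] in
theorem continuous_absForm : Continuous (absForm f) :=
  (CuspFormClass.holo f).continuous.norm.mul continuous_im

open ConjAct Pointwise in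
theorem tendsto_absForm (g : Γ₁) : Tendsto (fun z => absForm f (g • z)) atImInfty (𝓝 0) := by
  have : ((toConjAct (g : GL (Fin 2) ℝ)⁻¹) • ((Gamma0 N : Subgroup Γ₁) :
      Subgroup (GL (Fin 2) ℝ))).IsArithmetic := by
    simpa [(show Rat.castHom ℝ = algebraMap ℚ ℝ by rfl), map_inv, map_mapGL]
      using! Subgroup.IsArithmetic.conj ((Gamma0 N : Subgroup Γ₁) : Subgroup (GL (Fin 2) ℝ))
        (mapGL ℚ g)⁻¹
  have h := (CuspFormClass.zero_at_infty (CuspForm.translate f g)).petersson_isZeroAtImInfty_left 2 _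
    (CuspForm.translate f g)
  rw [IsZeroAtImInfty, ZeroAtFilter] at h
  have h2 : Tendsto (fun z => Real.sqrt ‖petersson 2 f f (g • z)‖) atImInfty (𝓝 (Real.sqrt 0)) := by
    refine (Real.continuous_sqrt.tendsto _).comp ?_
    simp_rw [← UpperHalfPlane.petersson_slash_SL]
    exact tendsto_zero_iff_norm_tendsto_zero.1 h
  simpa only [Real.sqrt_zero, sqrt_norm_petersson] using h2

/-- The invariant absolute value is maximal somewhere. -/
theorem exists_isMax_absForm : ∃ z₀, ∀ z, absForm f z ≤ absForm f z₀ := by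
  by_cases h0 : ∀ z, absForm f z = 0
  · exact ⟨UpperHalfPlane.I, fun z => by rw [h0 z, h0]⟩
  push Not at h0
  obtain ⟨z₁, hz₁⟩ := h0
  have hε : 0 < absForm f z₁ := lt_of_le_of_ne (absForm_nonneg f z₁) (Ne.symm hz₁)
  have := Fintype.ofFinite (Γ₁ ⧸ Gamma0 N)
  have hev : ∀ x : Γ₁ ⧸ Gamma0 N, ∃ Y : ℝ, ∀ w : ℍ, Y ≤ w.im →
      absForm f ((Quotient.out x)⁻¹ • w) < absForm f z₁ := fun x => by
    have h := (tendsto_absForm f (Quotient.out x)⁻¹).eventually (gt_mem_nhds hε)
    rw [atImInfty, eventually_comap, eventually_atTop] at h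
    obtain ⟨Y, hY⟩ := h
    exact ⟨Y, fun w hw => hY w.im hw w rfl⟩
  choose Y hY using hev
  obtain ⟨Y₀, hY₀⟩ := (Set.finite_range Y).bddAbove
  let K : Set ℍ := ⋃ x : Γ₁ ⧸ Gamma0 N,
    (fun w => (Quotient.out x)⁻¹ • w) '' truncatedFundamentalDomain Y₀
  have hK : IsCompact K := isCompact_iUnion fun x => by
    refine (isCompact_truncatedFundamentalDomain Y₀).image ?_
    simp only [sl_smul_eq]
    exact continuous_const_smul _
  have hred : ∀ z, ∃ (x : Γ₁ ⧸ Gamma0 N) (w : ℍ), w ∈ fd ∧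
      absForm f z = absForm f ((Quotient.out x)⁻¹ • w) := fun z => by
    obtain ⟨h, hh⟩ := exists_smul_mem_fd z
    refine ⟨(h : Γ₁), h • z, hh, ?_⟩
    have hm : (Quotient.out ((h : Γ₁) : Γ₁ ⧸ Gamma0 N))⁻¹ * h ∈ Gamma0 N :=
      QuotientGroup.eq.mp (QuotientGroup.out_eq' _)
    rw [← mul_smul, absForm_smul f hm]
  have hne : K.Nonempty := by
    obtain ⟨x, w, hw, e⟩ := hred z₁
    refine ⟨_, Set.mem_iUnion.2 ⟨x, w, ⟨hw, ?_⟩, rfl⟩⟩
    by_contra hlt
    exact absurd (hY x w ((hY₀ ⟨x, rfl⟩).trans (not_le.1 hlt).le)) (by rw [e]; exact lt_irrefl _)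
  obtain ⟨z₀, -, hmax⟩ := hK.exists_isMaxOn hne (continuous_absForm f).continuousOn
  refine ⟨z₀, fun z => ?_⟩
  have hin : ∀ x w, w ∈ fd → absForm f z₁ ≤ absForm f ((Quotient.out x)⁻¹ • w) →
      absForm f ((Quotient.out x)⁻¹ • w) ≤ absForm f z₀ := fun x w hw hle => by
    refine hmax (Set.mem_iUnion.2 ⟨x, w, ⟨hw, ?_⟩, rfl⟩)
    by_contra hlt
    exact absurd (hY x w ((hY₀ ⟨x, rfl⟩).trans (not_le.1 hlt).le)) (not_lt.2 hle)
  obtain ⟨x, w, hw, e⟩ := hred z
  obtain ⟨x₁, w₁, hw₁, e₁⟩ := hred z₁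
  rcases le_or_gt (absForm f z₁) (absForm f z) with h | h
  · rw [e]
    exact hin x w hw (e ▸ h)
  · exact h.le.trans (e₁ ▸ hin x₁ w₁ hw₁ e₁.le)

variable {ℓ : ℕ} (hℓ : ℓ.Prime) (hℓN : ¬ ℓ ∣ N)

theorem im_heckeMatrix_smul (hl : ℓ ≠ 0) (j : ℕ) (z : ℍ) :
    (ModularForm.heckeMatrix ℓ j • z).im = z.im / ℓ := by
  rw [← coe_im, ModularForm.coe_heckeMatrix_smul hl, Complex.div_natCast_im]
  simp

theorem im_heckeDiagMatrix_smul (hl : ℓ ≠ 0) (z : ℍ) :
    (ModularForm.heckeDiagMatrix ℓ • z).im = ℓ * z.im := by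
  rw [← coe_im, ModularForm.coe_heckeDiagMatrix_smul hl]
  simp

include hℓ hℓN in
/-- **The trivial bound is not attained.** -/
theorem eq_zero_of_norm_eigen {μ : ℂ} (hf : CuspForm.heckeTLin 2 hℓ hℓN f = μ • f)
    (hμ : ‖μ‖ = (ℓ : ℝ) + 1) : f = 0 := by
  have hl := hℓ.ne_zero
  have hl' : (0 : ℝ) < ℓ := Nat.cast_pos.2 hℓ.pos
  obtain ⟨z₀, hmax⟩ := exists_isMax_absForm f
  have hstep : ∀ z, ((ℓ : ℝ) + 1) * absForm f z ≤
      (∑ j ∈ Finset.range ℓ, absForm f (ModularForm.heckeMatrix ℓ j • z)) +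
        absForm f (ModularForm.heckeDiagMatrix ℓ • z) := fun z => by
    have h1 : μ * f z = (ℓ : ℂ)⁻¹ * ∑ j ∈ Finset.range ℓ, f (ModularForm.heckeMatrix ℓ j • z) +
        (ℓ : ℂ) * f (ModularForm.heckeDiagMatrix ℓ • z) := by
      have h := congrArg (fun g : CuspForm (Gamma0 N) 2 => g z) hf
      simp only [CuspForm.coe_heckeTLin_apply, ModularForm.heckeT_apply 2 hl] at h
      simpa using h.symm
    calc ((ℓ : ℝ) + 1) * absForm f z = ‖μ * f z‖ * z.im := by
          rw [norm_mul, hμ, absForm, mul_assoc]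
      _ ≤ ((ℓ : ℝ)⁻¹ * ∑ j ∈ Finset.range ℓ, ‖f (ModularForm.heckeMatrix ℓ j • z)‖ +
          (ℓ : ℝ) * ‖f (ModularForm.heckeDiagMatrix ℓ • z)‖) * z.im := by
        refine mul_le_mul_of_nonneg_right ?_ z.im_pos.le
        rw [h1]
        refine (norm_add_le _ _).trans (add_le_add ?_ ?_)
        · rw [norm_mul, norm_inv, Complex.norm_natCast]
          exact mul_le_mul_of_nonneg_left (norm_sum_le _ _) (inv_nonneg.2 hl'.le)
        · rw [norm_mul, Complex.norm_natCast]
      _ = _ := by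
        simp only [absForm, im_heckeMatrix_smul hl, im_heckeDiagMatrix_smul hl, ← Finset.sum_mul]
        field_simp
  have hnext : ∀ z, absForm f z = absForm f z₀ →
      absForm f (ModularForm.heckeDiagMatrix ℓ • z) = absForm f z₀ := fun z hz => by
    refine le_antisymm (hmax _) ?_
    have h := hstep z
    have hs : (∑ j ∈ Finset.range ℓ, absForm f (ModularForm.heckeMatrix ℓ j • z)) ≤
        (ℓ : ℝ) * absForm f z₀ := by
      refine (Finset.sum_le_sum fun j _ => hmax (ModularForm.heckeMatrix ℓ j • z)).trans_eq ?_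
      rw [Finset.sum_const, Finset.card_range, nsmul_eq_mul]
    rw [hz] at h
    linarith
  let it : ℕ → ℍ := fun k => (fun z => ModularForm.heckeDiagMatrix ℓ • z)^[k] z₀
  have hit : ∀ k, absForm f (it k) = absForm f z₀ := fun k => by
    induction k with
    | zero => rfl
    | succ k ih =>
      simp only [it, Function.iterate_succ_apply'] at ih ⊢
      exact hnext _ ih
  have him : ∀ k, (it k).im = (ℓ : ℝ) ^ k * z₀.im := fun k => by
    induction k with
    | zero => simp [it]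
    | succ k ih =>
      simp only [it, Function.iterate_succ_apply'] at ih ⊢
      rw [im_heckeDiagMatrix_smul hl, ih, pow_succ]
      ring
  have hlim : Tendsto it atTop atImInfty := by
    rw [atImInfty, tendsto_comap_iff]
    refine (Filter.tendsto_congr (fun k => (him k).symm)).1 ?_
    exact (tendsto_pow_atTop_atTop_of_one_lt (Nat.one_lt_cast.2 hℓ.one_lt)).atTop_mul_const z₀.im_pos
  have h0 : absForm f z₀ = 0 := by
    have h := (tendsto_absForm f 1).comp hlim
    simp only [Function.comp_def, one_smul, hit] at h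
    exact tendsto_nhds_unique tendsto_const_nhds h
  ext z
  have h := hmax z
  rw [h0] at h
  rcases mul_eq_zero.1 (le_antisymm h (absForm_nonneg f z)) with h | h
  · simpa using h
  · exact absurd h z.im_ne_zero

end FA.Petersson
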