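import Fermat.Agent.Petersson.Inner
import Fermat.Prelude.Def_CuspForm_HeckeAlgebra
import Fermat.Agent.Dim.ParabolicBound
import Fermat.Agent.Period.Injective
import Mathlib.LinearAlgebra.Eigenspace.Triangularizable
import Mathlib.RingTheory.Nilpotent.Lemmas
import Mathlib.FieldTheory.IsAlgClosed.Basic

/-!
# Semisimplicity of the good Hecke algebra in weight two

Its elements are symmetric for the Petersson form, so the algebra is reduced, every element is
diagonalisable and the characters separate the elements.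
-/

set_option autoImplicit false

noncomputable section

open CongruenceSubgroup
open scoped ComplexConjugate IsMulCommutative

namespace FA.Petersson

variable {N : ℕ} [NeZero N]

/-- The space of cusp forms of weight two. -/
local notation "S₂" => CuspForm (Gamma0 N) 2

theorem finite_cuspForm : FiniteDimensional ℂ S₂ := by
  haveI := FA.Dim.parabolicHoms_finite N
  let L : (S₂ × S₂) →ₗ[ℂ] ModularCurve.Period.parabolicHoms ℂ (Gamma0 N) ℂ :=
    LinearMap.codRestrict _ (ModularCurve.periodHomPair N) fun p =>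
      FA.Period.range_periodHomPair_le (N := N) ⟨p, rfl⟩
  have hL : Function.Injective L := fun p q h =>
    FA.Period.periodHomPair_injective (congrArg Subtype.val h)
  exact Module.Finite.of_injective (L.comp (LinearMap.inl ℂ _ _)) (hL.comp LinearMap.inl_injective)

theorem inner_add_right (f g g' : CuspForm (Gamma0 N) 2) :
    inner f (g + g') = inner f g + inner f g' := by
  rw [inner, inner, inner, ← mean_add ((nice_form f).bdd (nice_form g)) ((nice_form f).bdd (nice_form g'))]
  congr 1
  funext z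
  simp [UpperHalfPlane.petersson, mul_add, add_mul]

theorem inner_smul_right (c : ℂ) (f g : CuspForm (Gamma0 N) 2) :
    inner f (c • g) = c * inner f g := by
  have := Fintype.ofFinite (Matrix.SpecialLinearGroup (Fin 2) ℤ ⧸ Gamma0 N)
  simp only [inner, mean, avg, finsum_eq_sum_of_fintype, ← mul_div_assoc, Finset.mul_sum]
  congr 1
  refine Finset.sum_congr rfl fun x _ => ?_
  rw [← MeasureTheory.integral_const_mul]
  congr 1
  funext z
  simp [UpperHalfPlane.petersson]
  ring

theorem inner_add_left (f f' g : CuspForm (Gamma0 N) 2) :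
    inner (f + f') g = inner f g + inner f' g := by
  rw [← inner_symm g, inner_add_right, map_add, inner_symm, inner_symm]

theorem inner_smul_left (c : ℂ) (f g : CuspForm (Gamma0 N) 2) :
    inner (c • f) g = conj c * inner f g := by
  rw [← inner_symm g, inner_smul_right, map_mul, inner_symm]

/-- The Petersson form as a map, linear in the second variable. -/
def innerLin (f : CuspForm (Gamma0 N) 2) : CuspForm (Gamma0 N) 2 →ₗ[ℂ] ℂ where
  toFun := inner f
  map_add' := inner_add_right f
  map_smul' c g := inner_smul_right c f g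

/-- An operator symmetric for the Petersson form. -/
def IsSymm (A : Module.End ℂ (CuspForm (Gamma0 N) 2)) : Prop :=
  ∀ f g, inner (A f) g = inner f (A g)

theorem IsSymm.eq_zero_of_sq {A : Module.End ℂ (CuspForm (Gamma0 N) 2)} (hA : IsSymm A)
    {v : CuspForm (Gamma0 N) 2} (h : A (A v) = 0) : A v = 0 := by
  refine eq_zero_of_inner_self ?_
  rw [hA, h]
  exact (innerLin v).map_zero

theorem IsSymm.eq_zero_of_pow {A : Module.End ℂ (CuspForm (Gamma0 N) 2)} (hA : IsSymm A) :
    ∀ {n : ℕ} {v : CuspForm (Gamma0 N) 2}, (A ^ n) v = 0 → A v = 0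
  | 0, v, h => by rw [pow_zero, Module.End.one_apply] at h; rw [h, map_zero]
  | 1, v, h => by rwa [pow_one] at h
  | n + 2, v, h => by
    refine hA.eq_zero_of_pow (n := n + 1) ?_
    rw [pow_succ', Module.End.mul_apply, pow_succ', Module.End.mul_apply] at h
    rw [pow_succ', Module.End.mul_apply]
    exact hA.eq_zero_of_sq h

theorem IsSymm.eigenvalue_real {A : Module.End ℂ (CuspForm (Gamma0 N) 2)} (hA : IsSymm A) {μ : ℂ}
    {v : CuspForm (Gamma0 N) 2} (hv : v ≠ 0) (h : A v = μ • v) : conj μ = μ := by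
  have h1 := hA v v
  rw [h, inner_smul_left, inner_smul_right] at h1
  exact mul_right_cancel₀ (fun h0 => hv (eq_zero_of_inner_self h0)) h1

/-- Symmetric operators are diagonalisable. -/
theorem IsSymm.iSup_eigenspace_eq_top {A : Module.End ℂ (CuspForm (Gamma0 N) 2)} (hA : IsSymm A) :
    ⨆ μ, Module.End.eigenspace A μ = ⊤ := by
  have := finite_cuspForm (N := N)
  refine top_unique ((Module.End.iSup_maxGenEigenspace_eq_top A).ge.trans (iSup_mono fun μ v hv => ?_))
  rw [Module.End.mem_maxGenEigenspace] at hv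
  obtain ⟨k, hk⟩ := hv
  rw [Module.End.mem_eigenspace_iff, ← sub_eq_zero]
  by_cases hv0 : v = 0
  · simp [hv0]
  obtain ⟨w, hw0, hw⟩ : ∃ w, w ≠ 0 ∧ A w = μ • w := by
    classical
    have hex : ∃ n, ((A - μ • (1 : Module.End ℂ (CuspForm (Gamma0 N) 2))) ^ n) v = 0 := ⟨k, hk⟩
    obtain ⟨m, hm⟩ : ∃ m, Nat.find hex = m + 1 := Nat.exists_eq_succ_of_ne_zero fun h0 => hv0 (by
      simpa [h0] using Nat.find_spec hex)
    refine ⟨((A - μ • (1 : Module.End ℂ (CuspForm (Gamma0 N) 2))) ^ m) v, Nat.find_min hex (by omega), sub_eq_zero.mp ?_⟩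
    have := Nat.find_spec hex
    rw [hm, pow_succ', Module.End.mul_apply] at this
    simpa using this
  have hμ := hA.eigenvalue_real hw0 hw
  have hsymm : IsSymm (A - μ • (1 : Module.End ℂ (CuspForm (Gamma0 N) 2))) := fun f g => by
    simp only [LinearMap.sub_apply, LinearMap.smul_apply, Module.End.one_apply]
    rw [sub_eq_add_neg, ← neg_smul, inner_add_left, inner_smul_left, hA, sub_eq_add_neg, ← neg_smul,
      inner_add_right, inner_smul_right, map_neg, hμ]
  simpa using hsymm.eq_zero_of_pow hk

variable {S : Set ℕ}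

/-- Every element of the Hecke algebra away from the level is symmetric. -/
theorem isSymm_of_mem (hS : ∀ q : ℕ, q.Prime → q ∣ N → q ∈ S)
    {A : Module.End ℂ (CuspForm (Gamma0 N) 2)} (hA : A ∈ CuspForm.heckeAlgebra N 2 S) : IsSymm A := by
  induction hA using Algebra.adjoin_induction with
  | mem x hx =>
    rcases hx with ⟨ℓ, hℓ, hℓN, -, rfl⟩ | ⟨q, hqN, hq, hqS, -⟩
    · exact inner_heckeTLin hℓ hℓN
    · exact absurd (hS q hq hqN) hqS
  | algebraMap r =>
    intro f g
    simp only [Module.algebraMap_end_apply, ← Int.cast_smul_eq_zsmul ℂ]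
    rw [inner_smul_left, inner_smul_right, map_intCast]
  | add x y _ _ hx hy =>
    intro f g
    simp only [LinearMap.add_apply]
    rw [inner_add_left, inner_add_right, hx, hy]
  | mul x y hx' hy' hx hy =>
    intro f g
    have hc : x * y = y * x := congrArg Subtype.val
      (mul_comm (⟨x, hx'⟩ : CuspForm.heckeAlgebra N 2 S) ⟨y, hy'⟩)
    simp only [Module.End.mul_apply]
    rw [hx, hy, ← Module.End.mul_apply y x, ← hc, Module.End.mul_apply]

/-- The good Hecke algebra is reduced. -/
theorem isReduced_heckeAlgebra (hS : ∀ q : ℕ, q.Prime → q ∣ N → q ∈ S) :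
    IsReduced (CuspForm.heckeAlgebra N 2 S) :=
  ⟨fun a ⟨n, hn⟩ => Subtype.ext (LinearMap.ext fun v =>
    (isSymm_of_mem hS a.2).eq_zero_of_pow (n := n) (by
      rw [← SubmonoidClass.coe_pow, hn]; rfl))⟩

/-- Every element of the good Hecke algebra is diagonalisable. -/
theorem iSup_eigenspace_eq_top (hS : ∀ q : ℕ, q.Prime → q ∣ N → q ∈ S)
    (a : CuspForm.heckeAlgebra N 2 S) :
    ⨆ μ, Module.End.eigenspace (a : Module.End ℂ (CuspForm (Gamma0 N) 2)) μ = ⊤ :=
  (isSymm_of_mem hS a.2).iSup_eigenspace_eq_top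

/-- **The characters separate the elements of the good Hecke algebra.** -/
theorem exists_character_ne_zero (hS : ∀ q : ℕ, q.Prime → q ∣ N → q ∈ S)
    {a : CuspForm.heckeAlgebra N 2 S} (ha : a ≠ 0) :
    ∃ χ : CuspForm.heckeAlgebra N 2 S →+* ℂ, χ a ≠ 0 := by
  have := finite_cuspForm (N := N)
  let B : Subalgebra ℂ (Module.End ℂ (CuspForm (Gamma0 N) 2)) :=
    Algebra.adjoin ℂ (CuspForm.heckeAlgebra N 2 S : Set (Module.End ℂ (CuspForm (Gamma0 N) 2)))
  have : IsMulCommutative B := Algebra.isMulCommutative_adjoin ℂ fun x hx y hy =>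
    congrArg Subtype.val (mul_comm (⟨x, hx⟩ : CuspForm.heckeAlgebra N 2 S) ⟨y, hy⟩)
  let _ : CommRing B := inferInstance
  let incl : CuspForm.heckeAlgebra N 2 S →+* B :=
    { toFun := fun x => ⟨x, Algebra.subset_adjoin x.2⟩
      map_one' := rfl
      map_mul' := fun _ _ => rfl
      map_zero' := rfl
      map_add' := fun _ _ => rfl }
  have hnil : ¬ IsNilpotent (incl a) := by
    rintro ⟨n, hn⟩
    refine ha (Subtype.ext (LinearMap.ext fun v => ?_))
    refine (isSymm_of_mem hS a.2).eq_zero_of_pow (n := n) ?_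
    have := congrArg Subtype.val hn
    rw [SubmonoidClass.coe_pow] at this
    exact LinearMap.congr_fun this v
  rw [nilpotent_iff_mem_prime] at hnil
  push Not at hnil
  obtain ⟨P, hP, haP⟩ := hnil
  have : Algebra.IsIntegral ℂ (B ⧸ P) := Algebra.IsIntegral.of_finite ℂ _
  let e := RingEquiv.ofBijective (algebraMap ℂ (B ⧸ P))
    (IsAlgClosed.algebraMap_bijective_of_isIntegral (k := ℂ) (K := B ⧸ P))
  refine ⟨(e.symm.toRingHom.comp (Ideal.Quotient.mk P)).comp incl, fun h => haP ?_⟩
  rw [← Ideal.Quotient.eq_zero_iff_mem]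
  exact e.symm.injective (h.trans (map_zero e.symm).symm)

/-- An element killed by all characters is zero. -/
theorem eq_zero_of_forall_character (hS : ∀ q : ℕ, q.Prime → q ∣ N → q ∈ S)
    {a : CuspForm.heckeAlgebra N 2 S} (h : ∀ χ : CuspForm.heckeAlgebra N 2 S →+* ℂ, χ a = 0) :
    a = 0 := by
  by_contra ha
  obtain ⟨χ, hχ⟩ := exists_character_ne_zero hS ha
  exact hχ (h χ)

end FA.Petersson
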