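import Fermat.Agent.Petersson.Measure
import Fermat.Prelude.Def_ModularForm_HeckeOperatorForms
import Mathlib.NumberTheory.ModularForms.Bounds

/-!
# The Petersson form on cusp forms of weight two for `Γ₀(N)`

The good Hecke operators are symmetric for it.
-/

set_option autoImplicit false

noncomputable section

open MeasureTheory UpperHalfPlane ModularGroup Matrix.SpecialLinearGroup CongruenceSubgroup
open scoped MatrixGroups Modular ModularForm ComplexConjugate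

namespace FA.Petersson

local notation "Γ₁" => SL(2, ℤ)

variable {N : ℕ}

/-- The Petersson form. -/
def inner (f g : CuspForm (Gamma0 N) 2) : ℂ := mean (Gamma0 N) (petersson 2 f g)

theorem slash_sl_eq (f : CuspForm (Gamma0 N) 2) {γ : Γ₁} (hγ : γ ∈ Gamma0 N) :
    (⇑f) ∣[(2 : ℤ)] γ = ⇑f := by
  rw [ModularForm.SL_slash]
  exact SlashInvariantForm.slash_action_eqn f _ ⟨γ, hγ, rfl⟩

theorem petersson_sl_smul {a b : ℍ → ℂ} {γ : Γ₁} (ha : a ∣[(2 : ℤ)] γ = a) (hb : b ∣[(2 : ℤ)] γ = b)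
    (z : ℍ) : petersson 2 a b (γ • z) = petersson 2 a b z := by
  rw [← petersson_slash_SL, ha, hb]

/-- The bound of a Petersson product by the diagonal ones. -/
theorem norm_petersson_le (a b : ℍ → ℂ) (z : ℍ) :
    ‖petersson 2 a b z‖ ≤ ‖petersson 2 a a z‖ + ‖petersson 2 b b z‖ := by
  simp only [petersson, norm_mul, Complex.norm_conj]
  nlinarith [norm_nonneg (a z), norm_nonneg (b z), norm_nonneg ((z.im : ℂ) ^ (2 : ℤ)),
    mul_nonneg (sq_nonneg (‖a z‖ - ‖b z‖)) (norm_nonneg ((z.im : ℂ) ^ (2 : ℤ))),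
    mul_nonneg (mul_nonneg (norm_nonneg (a z)) (norm_nonneg (b z))) (norm_nonneg ((z.im : ℂ) ^ (2 : ℤ)))]

/-- Continuous functions whose diagonal Petersson product is bounded. -/
structure Nice (a : ℍ → ℂ) : Prop where
  cont : Continuous a
  bound : ∃ C : ℝ, ∀ z, ‖petersson 2 a a z‖ ≤ C

theorem Nice.bdd {a b : ℍ → ℂ} (ha : Nice a) (hb : Nice b) : Bdd (petersson 2 a b) := by
  refine ⟨(petersson_continuous 2 ha.cont hb.cont).measurable, ?_⟩
  obtain ⟨C, hC⟩ := ha.bound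
  obtain ⟨D, hD⟩ := hb.bound
  exact ⟨C + D, fun z => (norm_petersson_le a b z).trans (add_le_add (hC z) (hD z))⟩

theorem nice_form [NeZero N] (f : CuspForm (Gamma0 N) 2) : Nice f :=
  ⟨(CuspFormClass.holo f).continuous, CuspFormClass.petersson_bounded_left 2 (Gamma0 N : Subgroup (GL (Fin 2) ℝ)) f f⟩

theorem Nice.slash {a : ℍ → ℂ} (ha : Nice a) (α : GL (Fin 2) ℝ) (hc : Continuous (a ∣[(2 : ℤ)] α)) :
    Nice (a ∣[(2 : ℤ)] α) := by
  refine ⟨hc, ?_⟩
  obtain ⟨C, hC⟩ := ha.bound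
  refine ⟨C, fun z => ?_⟩
  rw [petersson_slash, norm_mul, norm_σ]
  simpa using hC (α • z)

variable {ℓ : ℕ}

theorem nice_diag [NeZero N] (hl : ℓ ≠ 0) (f : CuspForm (Gamma0 N) 2) :
    Nice ((⇑f) ∣[(2 : ℤ)] ModularForm.heckeDiagMatrix ℓ) :=
  (nice_form f).slash _ (by
    rw [funext (ModularForm.slash_heckeDiagMatrix_apply 2 hl f)]
    exact continuous_const.mul ((nice_form f).cont.comp (continuous_const_smul _)))

theorem nice_mat [NeZero N] (hl : ℓ ≠ 0) (j : ℕ) (f : CuspForm (Gamma0 N) 2) :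
    Nice ((⇑f) ∣[(2 : ℤ)] ModularForm.heckeMatrix ℓ j) :=
  (nice_form f).slash _ (by
    rw [funext (ModularForm.slash_heckeMatrix_apply 2 hl j f)]
    exact continuous_const.mul ((nice_form f).cont.comp (continuous_const_smul _)))

section Mean

variable {G : Subgroup Γ₁} [G.FiniteIndex]

theorem mean_sum {ι : Type*} (s : Finset ι) {F : ι → ℍ → ℂ} (hF : ∀ i, Bdd (F i)) :
    mean G (fun z => ∑ i ∈ s, F i z) = ∑ i ∈ s, mean G (F i) := by
  have := Fintype.ofFinite (Γ₁ ⧸ G)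
  simp only [mean, avg, finsum_eq_sum_of_fintype, ← Finset.sum_div]
  rw [Finset.sum_comm]
  congr 1
  refine Finset.sum_congr rfl fun x _ => ?_
  exact integral_finsetSum s fun i _ =>
    (((hF i).comp (measurable_const_smul (Quotient.out x)⁻¹)).integrableOn_fdo :)

theorem mean_add {F F' : ℍ → ℂ} (hF : Bdd F) (hF' : Bdd F') :
    mean G (fun z => F z + F' z) = mean G F + mean G F' := by
  have := Fintype.ofFinite (Γ₁ ⧸ G)
  simp only [mean, avg, finsum_eq_sum_of_fintype, ← add_div, ← Finset.sum_add_distrib]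
  congr 1
  refine Finset.sum_congr rfl fun x _ => ?_
  exact integral_add ((hF.comp (measurable_const_smul (Quotient.out x)⁻¹)).integrableOn_fdo :)
    ((hF'.comp (measurable_const_smul (Quotient.out x)⁻¹)).integrableOn_fdo :)

theorem mean_conj (F : ℍ → ℂ) : mean G (fun z => conj (F z)) = conj (mean G F) := by
  have := Fintype.ofFinite (Γ₁ ⧸ G)
  simp only [mean, avg, finsum_eq_sum_of_fintype, map_div₀, map_sum, map_natCast, integral_conj]

end Mean

section Level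

/-- An element of the modular group from its entries. -/
def mkSL (a b c d : ℤ) (h : a * d - b * c = 1) : Γ₁ :=
  ⟨!![a, b; c, d], by rw [Matrix.det_fin_two_of]; exact h⟩

@[simp] theorem mkSL_apply (a b c d : ℤ) (h : a * d - b * c = 1) (i k : Fin 2) :
    (mkSL a b c d h) i k = !![a, b; c, d] i k := rfl

theorem mapGL_apply (g : Γ₁) (i k : Fin 2) :
    ((mapGL ℝ g : GL (Fin 2) ℝ) : Matrix (Fin 2) (Fin 2) ℝ) i k = ((g i k : ℤ) : ℝ) := rfl

theorem sl_det_eq (g : Γ₁) : g 0 0 * g 1 1 - g 0 1 * g 1 0 = 1 := by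
  have := g.det_coe
  rwa [Matrix.det_fin_two] at this

variable (ℓ N) in
/-- The auxiliary level. -/
abbrev aux : ℕ := 3 * N * ℓ

theorem neg_one_notMem_Gamma {M : ℕ} (hM : 3 ≤ M) : (-1 : Γ₁) ∉ Gamma M := by
  intro h
  rw [Gamma_mem] at h
  have h' : ((-1 : ℤ) : ZMod M) = ((1 : ℤ) : ZMod M) := by simpa using h.1
  have := Nat.le_of_dvd (by norm_num : 0 < (2 : ℕ))
    (Int.natCast_dvd_natCast.mp (by simpa using (ZMod.intCast_eq_intCast_iff_dvd_sub (-1) 1 M).mp h'))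
  omega

theorem mem_Gamma_iff_dvd {M : ℕ} {g : Γ₁} :
    g ∈ Gamma M ↔ (M : ℤ) ∣ g 0 0 - 1 ∧ (M : ℤ) ∣ g 0 1 ∧ (M : ℤ) ∣ g 1 0 ∧ (M : ℤ) ∣ g 1 1 - 1 := by
  simp [Gamma_mem, ← ZMod.intCast_zmod_eq_zero_iff_dvd, sub_eq_zero]

theorem Gamma_le_Gamma0 {M : ℕ} (h : N ∣ M) : Gamma M ≤ Gamma0 N := by
  intro g hg
  rw [Gamma0_mem, ZMod.intCast_zmod_eq_zero_iff_dvd]
  exact (Int.natCast_dvd_natCast.mpr h).trans (mem_Gamma_iff_dvd.mp hg).2.2.1

variable (ℓ) in
/-- Conjugation by `diag(1, ℓ)`. -/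
def conjMat (g : Gamma (aux N ℓ)) : Γ₁ :=
  mkSL ((g : Γ₁) 0 0) ((g : Γ₁) 0 1 / ℓ) ((ℓ : ℤ) * (g : Γ₁) 1 0) ((g : Γ₁) 1 1) (by
    have hd : (ℓ : ℤ) ∣ (g : Γ₁) 0 1 :=
      (Dvd.intro_left _ (by push_cast; rfl) : (ℓ : ℤ) ∣ (aux N ℓ : ℤ)).trans
        (mem_Gamma_iff_dvd.mp g.2).2.1
    rw [← mul_assoc, Int.ediv_mul_cancel hd]
    exact sl_det_eq _)

theorem mat_mul_mapGL (hl : ℓ ≠ 0) (g : Gamma (aux N ℓ)) :
    ModularForm.heckeMatrix ℓ 0 * mapGL ℝ (g : Γ₁) =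
      mapGL ℝ (conjMat ℓ g) * ModularForm.heckeMatrix ℓ 0 := by
  have hd : (ℓ : ℤ) ∣ (g : Γ₁) 0 1 :=
    (Dvd.intro_left _ (by push_cast; rfl) : (ℓ : ℤ) ∣ (aux N ℓ : ℤ)).trans
      (mem_Gamma_iff_dvd.mp g.2).2.1
  obtain ⟨b, hb⟩ := hd
  have hbd : (g : Γ₁) 0 1 / (ℓ : ℤ) = b := by
    rw [hb, Int.mul_ediv_cancel_left _ (by exact_mod_cast hl)]
  ext i k
  simp only [Matrix.GeneralLinearGroup.coe_mul, ModularForm.val_heckeMatrix hl, conjMat,
    Matrix.mul_apply, Fin.sum_univ_two]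
  fin_cases i <;> fin_cases k <;> simp [hbd, mapGL_apply] <;> (try simp [hb]) <;> (try ring)

/-- The conjugation as a homomorphism. -/
def conjHom (hl : ℓ ≠ 0) : Gamma (aux N ℓ) →* Γ₁ where
  toFun := conjMat ℓ
  map_one' := by
    refine mapGL_injective (R := ℤ) (S := ℝ) ?_
    have h := mat_mul_mapGL (N := N) hl 1
    simp only [OneMemClass.coe_one, map_one, mul_one] at h
    rw [map_one]
    exact mul_right_cancel (h.symm.trans (one_mul _).symm)
  map_mul' a b := by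
    refine mapGL_injective (R := ℤ) (S := ℝ) ?_
    have h := mat_mul_mapGL hl (a * b)
    simp only [Subgroup.coe_mul, map_mul] at h
    rw [map_mul]
    refine mul_right_cancel (b := ModularForm.heckeMatrix ℓ 0) ?_
    rw [← h, ← mul_assoc, mat_mul_mapGL hl a, mul_assoc, mat_mul_mapGL hl b, ← mul_assoc]

theorem conjHom_injective (hl : ℓ ≠ 0) : Function.Injective (conjHom (N := N) hl) := fun a b h => by
  refine Subtype.ext (mapGL_injective (R := ℤ) (S := ℝ) (mul_left_cancel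
    (a := ModularForm.heckeMatrix ℓ 0) ?_))
  rw [mat_mul_mapGL hl a, mat_mul_mapGL hl b, show conjMat ℓ a = conjMat ℓ b from h]

theorem Gamma_mul_le_range (hl : ℓ ≠ 0) :
    Gamma (aux N ℓ * ℓ) ≤ (conjHom (N := N) hl).range := by
  intro g hg
  obtain ⟨h00, h01, ⟨c, hc⟩, h11⟩ := mem_Gamma_iff_dvd.mp hg
  have hM : ((aux N ℓ : ℕ) : ℤ) ∣ ((aux N ℓ * ℓ : ℕ) : ℤ) := Int.natCast_dvd_natCast.mpr ⟨ℓ, rfl⟩
  refine ⟨⟨mkSL (g 0 0) (g 0 1 * ℓ) ((aux N ℓ : ℤ) * c) (g 1 1) ?_, ?_⟩, ?_⟩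
  · have hdet := sl_det_eq g
    rw [hc] at hdet
    push_cast at hdet ⊢
    linear_combination hdet
  · rw [mem_Gamma_iff_dvd]
    simp only [mkSL_apply]
    simp only [Matrix.of_apply, Matrix.cons_val', Matrix.cons_val_zero, Matrix.cons_val_one,
      Matrix.cons_val_fin_one]
    exact ⟨hM.trans h00, (hM.trans h01).mul_right _, dvd_mul_right _ _, hM.trans h11⟩
  · ext i k
    fin_cases i <;> fin_cases k <;> simp [conjHom, conjMat, hc]
    · exact Int.mul_ediv_cancel _ (by exact_mod_cast hl)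
    · push_cast; ring

end Level

variable [NeZero N]

theorem inner_eq_mean {M : ℕ} [NeZero M] (h : N ∣ M) (f g : CuspForm (Gamma0 N) 2) :
    inner f g = mean (Gamma M) (petersson 2 f g) :=
  (mean_eq_of_le (Gamma_le_Gamma0 h) fun _ hγ z =>
    petersson_sl_smul (slash_sl_eq f hγ) (slash_sl_eq g hγ) z).symm

/-- Invariance of the translates at the auxiliary level. -/
theorem slash_mat_slash (hl : ℓ ≠ 0) (f : CuspForm (Gamma0 N) 2) {γ : Γ₁}
    (hγ : γ ∈ Gamma (aux N ℓ)) :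
    ((⇑f) ∣[(2 : ℤ)] ModularForm.heckeMatrix ℓ 0) ∣[(2 : ℤ)] γ =
      (⇑f) ∣[(2 : ℤ)] ModularForm.heckeMatrix ℓ 0 := by
  have h := mat_mul_mapGL hl ⟨γ, hγ⟩
  simp only at h
  have hmem : conjMat ℓ ⟨γ, hγ⟩ ∈ Gamma0 N := by
    rw [Gamma0_mem, ZMod.intCast_zmod_eq_zero_iff_dvd]
    simpa [conjMat] using ((Int.natCast_dvd_natCast.mpr ⟨3 * ℓ, by simp [aux]; ring⟩ :
      (N : ℤ) ∣ (aux N ℓ : ℤ)).trans (mem_Gamma_iff_dvd.mp hγ).2.2.1).mul_left (ℓ : ℤ)
  rw [ModularForm.SL_slash, ← SlashAction.slash_mul]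
  change (⇑f) ∣[(2 : ℤ)] (ModularForm.heckeMatrix ℓ 0 * mapGL ℝ γ) = _
  rw [h, SlashAction.slash_mul]
  congr 1
  exact slash_sl_eq f hmem

theorem slash_diag_slash_of_range (hl : ℓ ≠ 0) (f : CuspForm (Gamma0 N) 2) {γ : Γ₁}
    (hγ : γ ∈ (conjHom (N := N) hl).range) :
    ((⇑f) ∣[(2 : ℤ)] ModularForm.heckeDiagMatrix ℓ) ∣[(2 : ℤ)] γ =
      (⇑f) ∣[(2 : ℤ)] ModularForm.heckeDiagMatrix ℓ := by
  obtain ⟨a, rfl⟩ := hγ
  have h := mat_mul_mapGL hl a
  have hD : ModularForm.heckeDiagMatrix ℓ * mapGL ℝ (conjMat ℓ a) =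
      mapGL ℝ (a : Γ₁) * ModularForm.heckeDiagMatrix ℓ := by
    have hc : ∀ x : GL (Fin 2) ℝ,
        ModularForm.heckeDiagMatrix ℓ * ModularForm.heckeMatrix ℓ 0 * x =
          x * (ModularForm.heckeDiagMatrix ℓ * ModularForm.heckeMatrix ℓ 0) := fun x => by
      ext i k
      fin_cases i <;> fin_cases k <;>
        simp [ModularForm.val_heckeMatrix hl, ModularForm.val_heckeDiagMatrix hl, Matrix.mul_apply,
          Fin.sum_univ_two] <;> ring
    refine mul_right_cancel (b := ModularForm.heckeMatrix ℓ 0) ?_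
    rw [mul_assoc, ← h, ← mul_assoc, hc, mul_assoc]
  rw [ModularForm.SL_slash, ← SlashAction.slash_mul]
  change (⇑f) ∣[(2 : ℤ)] (ModularForm.heckeDiagMatrix ℓ * mapGL ℝ (conjMat ℓ a)) = _
  rw [hD, SlashAction.slash_mul]
  congr 1
  exact slash_sl_eq f (Gamma_le_Gamma0 ⟨3 * ℓ, by simp [aux]; ring⟩ a.2)

theorem slash_diag_slash (hl : ℓ ≠ 0) (f : CuspForm (Gamma0 N) 2) {γ : Γ₁}
    (hγ : γ ∈ Gamma (aux N ℓ)) :
    ((⇑f) ∣[(2 : ℤ)] ModularForm.heckeDiagMatrix ℓ) ∣[(2 : ℤ)] γ =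
      (⇑f) ∣[(2 : ℤ)] ModularForm.heckeDiagMatrix ℓ := by
  obtain ⟨-, -, ⟨c, hc⟩, -⟩ := mem_Gamma_iff_dvd.mp hγ
  let γ' : Γ₁ := mkSL (γ 0 0) ((ℓ : ℤ) * γ 0 1) (3 * (N : ℤ) * c) (γ 1 1) (by
    have hdet := sl_det_eq γ
    rw [hc] at hdet
    push_cast at hdet ⊢
    linear_combination hdet)
  have hD : ModularForm.heckeDiagMatrix ℓ * mapGL ℝ γ =
      mapGL ℝ γ' * ModularForm.heckeDiagMatrix ℓ := by
    ext i k
    fin_cases i <;> fin_cases k <;>
      simp [γ', mapGL_apply, ModularForm.val_heckeDiagMatrix hl, Matrix.mul_apply, Fin.sum_univ_two, hc] <;>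
      ring
  rw [ModularForm.SL_slash, ← SlashAction.slash_mul]
  change (⇑f) ∣[(2 : ℤ)] (ModularForm.heckeDiagMatrix ℓ * mapGL ℝ γ) = _
  rw [hD, SlashAction.slash_mul]
  congr 1
  refine slash_sl_eq f ?_
  rw [Gamma0_mem, ZMod.intCast_zmod_eq_zero_iff_dvd]
  exact ⟨3 * c, by simp [γ']; ring⟩

/-- The two translates of a pair correspond under the change of variables. -/
theorem mean_mat_left (hl : ℓ ≠ 0) (f g : CuspForm (Gamma0 N) 2) :
    mean (Gamma (aux N ℓ)) (petersson 2 ((⇑f) ∣[(2 : ℤ)] ModularForm.heckeMatrix ℓ 0) g) =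
      mean (Gamma (aux N ℓ)) (petersson 2 f ((⇑g) ∣[(2 : ℤ)] ModularForm.heckeDiagMatrix ℓ)) := by
  have : NeZero (aux N ℓ) := ⟨by simp [aux, hl, NeZero.ne N]⟩
  have : NeZero (aux N ℓ * ℓ) := ⟨mul_ne_zero (NeZero.ne _) hl⟩
  have hM : 3 ≤ aux N ℓ := by
    have h1 : 0 < N * ℓ := Nat.pos_of_ne_zero (mul_ne_zero (NeZero.ne N) hl)
    simp only [aux, mul_assoc]
    omega
  set F := petersson 2 (⇑f) ((⇑g) ∣[(2 : ℤ)] ModularForm.heckeDiagMatrix ℓ)
  have hB : Bdd F := (nice_form f).bdd (nice_diag hl g)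
  have hle := Gamma_mul_le_range (N := N) hl
  have : (conjHom (N := N) hl).range.FiniteIndex := Subgroup.finiteIndex_of_le hle
  have hneg : (-1 : Γ₁) ∉ (conjHom (N := N) hl).range := by
    rintro ⟨a, ha⟩
    have h00 := (mem_Gamma_iff_dvd.mp a.2).1
    have : (a : Γ₁) 0 0 = -1 := by
      have := congrArg (fun x : Γ₁ => x 0 0) ha
      simpa [conjHom, conjMat] using this
    rw [this] at h00
    norm_num at h00
    have := Nat.le_of_dvd (by norm_num) (Int.natCast_dvd_natCast.mp h00 : aux N ℓ ∣ 2)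
    omega
  have hinvR : ∀ γ ∈ (conjHom (N := N) hl).range, ∀ z, F (γ • z) = F z := fun γ hγ z => by
    refine petersson_sl_smul (slash_sl_eq f ?_) (slash_diag_slash_of_range hl g hγ) z
    obtain ⟨a, rfl⟩ := hγ
    rw [Gamma0_mem, ZMod.intCast_zmod_eq_zero_iff_dvd]
    simpa [conjHom, conjMat] using ((Int.natCast_dvd_natCast.mpr ⟨3 * ℓ, by simp [aux]; ring⟩ :
      (N : ℤ) ∣ (aux N ℓ : ℤ)).trans (mem_Gamma_iff_dvd.mp a.2).2.2.1).mul_left (ℓ : ℤ)
  have hinvG : ∀ γ ∈ Gamma (aux N ℓ), ∀ z, F (γ • z) = F z := fun γ hγ z =>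
    petersson_sl_smul (slash_sl_eq f (Gamma_le_Gamma0 ⟨3 * ℓ, by simp [aux]; ring⟩ hγ))
      (slash_diag_slash hl g hγ) z
  have hpt : petersson 2 ((⇑f) ∣[(2 : ℤ)] ModularForm.heckeMatrix ℓ 0) g =
      fun z => F (ModularForm.heckeMatrix ℓ 0 • z) := by
    have hg : ((⇑g) ∣[(2 : ℤ)] ModularForm.heckeDiagMatrix ℓ) ∣[(2 : ℤ)]
        ModularForm.heckeMatrix ℓ 0 = ⇑g := by
      funext z
      have hz : ModularForm.heckeDiagMatrix ℓ • ModularForm.heckeMatrix ℓ 0 • z = z := by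
        ext
        rw [ModularForm.coe_heckeDiagMatrix_smul hl, ModularForm.coe_heckeMatrix_smul hl]
        have : (ℓ : ℂ) ≠ 0 := Nat.cast_ne_zero.mpr hl
        field_simp
        simp
      rw [ModularForm.slash_heckeMatrix_apply 2 hl, ModularForm.slash_heckeDiagMatrix_apply 2 hl,
        hz, show (2 : ℤ) - 1 = 1 from rfl, zpow_one, inv_mul_cancel_left₀ (Nat.cast_ne_zero.mpr hl)]
    funext z
    conv_lhs => rw [← hg]
    rw [petersson_slash, ModularForm.σ_heckeMatrix]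
    simp [F]
  rw [hpt, mean_comp_smul (neg_one_notMem_Gamma hM) hneg (ModularForm.heckeMatrix ℓ 0)
    (MonoidHom.ofInjective (conjHom_injective hl)).symm.toEquiv (fun g z => ?_) hinvR hB,
    ← mean_eq_of_le hle hinvR,
    mean_eq_of_le (K := Gamma (aux N ℓ)) (fun x hx => ?_) hinvG]
  · rw [mem_Gamma_iff_dvd] at hx ⊢
    have hd : ((aux N ℓ : ℕ) : ℤ) ∣ ((aux N ℓ * ℓ : ℕ) : ℤ) := Int.natCast_dvd_natCast.mpr ⟨ℓ, rfl⟩
    exact ⟨hd.trans hx.1, hd.trans hx.2.1, hd.trans hx.2.2.1, hd.trans hx.2.2.2⟩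
  · obtain ⟨a, rfl⟩ := (MonoidHom.ofInjective (conjHom_injective (N := N) hl)).surjective g
    rw [show ((MonoidHom.ofInjective (conjHom_injective (N := N) hl)).symm.toEquiv)
        (MonoidHom.ofInjective (conjHom_injective hl) a) = a from
      (MonoidHom.ofInjective (conjHom_injective hl)).symm_apply_apply a, MonoidHom.ofInjective_apply]
    rw [sl_smul_eq, sl_smul_eq, smul_smul, smul_smul]
    exact congrArg (· • z) (mat_mul_mapGL hl a)

variable (hl : ℓ.Prime) (hN : ¬ ℓ ∣ N)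

include hl hN in
/-- The two translates of the second argument have the same mean. -/
theorem mean_mat_right (f g : CuspForm (Gamma0 N) 2) :
    mean (Gamma (aux N ℓ)) (petersson 2 f ((⇑g) ∣[(2 : ℤ)] ModularForm.heckeMatrix ℓ 0)) =
      mean (Gamma (aux N ℓ)) (petersson 2 f ((⇑g) ∣[(2 : ℤ)] ModularForm.heckeDiagMatrix ℓ)) := by
  obtain ⟨a, b, hab⟩ := Int.isCoprime_iff_gcd_eq_one.mpr (by
    rw [Int.gcd_natCast_natCast]; exact (hl.coprime_iff_not_dvd.mpr hN) :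
      Int.gcd (ℓ : ℤ) (N : ℤ) = 1)
  let γ : Γ₁ := mkSL (ℓ : ℤ) (-b) (N : ℤ) a (by linear_combination hab)
  let γ' : Γ₁ := mkSL 1 (-b) (N : ℤ) ((ℓ : ℤ) * a) (by linear_combination hab)
  have hγ : γ ∈ Gamma0 N := by simp [γ, Gamma0_mem]
  have hγ' : γ' ∈ Gamma0 N := by simp [γ', Gamma0_mem]
  have hmat : ModularForm.heckeMatrix ℓ 0 * mapGL ℝ γ =
      mapGL ℝ γ' * ModularForm.heckeDiagMatrix ℓ := by
    ext i k
    fin_cases i <;> fin_cases k <;>
      simp [γ, γ', mapGL_apply, ModularForm.val_heckeMatrix hl.ne_zero, ModularForm.val_heckeDiagMatrix hl.ne_zero,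
        Matrix.mul_apply, Fin.sum_univ_two] <;> ring
  have hpt : petersson 2 f ((⇑g) ∣[(2 : ℤ)] ModularForm.heckeDiagMatrix ℓ) =
      fun z => petersson 2 f ((⇑g) ∣[(2 : ℤ)] ModularForm.heckeMatrix ℓ 0) (γ • z) := by
    funext z
    rw [← petersson_slash_SL, slash_sl_eq f hγ]
    congr 1
    rw [ModularForm.SL_slash, ← SlashAction.slash_mul]
    change _ = (⇑g) ∣[(2 : ℤ)] (ModularForm.heckeMatrix ℓ 0 * mapGL ℝ γ)
    rw [hmat, SlashAction.slash_mul]
    congr 1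
    exact (slash_sl_eq g hγ').symm
  have := Gamma_normal (aux N ℓ)
  rw [hpt, mean_comp_sl]
  exact fun x hx z => petersson_sl_smul
    (slash_sl_eq f (Gamma_le_Gamma0 ⟨3 * ℓ, by simp [aux]; ring⟩ hx))
    (slash_mat_slash hl.ne_zero g hx) z

omit [NeZero N] in
theorem slash_mat_eq (hl : ℓ ≠ 0) (j : ℕ) (f : ℍ → ℂ) :
    f ∣[(2 : ℤ)] ModularForm.heckeMatrix ℓ j =
      (f ∣[(2 : ℤ)] ModularForm.heckeMatrix ℓ 0) ∣[(2 : ℤ)] (ModularGroup.T ^ (j : ℤ) : Γ₁) := by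
  rw [ModularForm.SL_slash, ← SlashAction.slash_mul]
  change f ∣[(2 : ℤ)] ModularForm.heckeMatrix ℓ j = f ∣[(2 : ℤ)]
    (ModularForm.heckeMatrix ℓ 0 * mapGL ℝ (ModularGroup.T ^ (j : ℤ) : Γ₁))
  congr 1
  ext i k
  simp only [Matrix.GeneralLinearGroup.coe_mul, ModularForm.val_heckeMatrix hl, Matrix.mul_apply,
    Fin.sum_univ_two, mapGL_apply, ModularGroup.coe_T_zpow]
  fin_cases i <;> fin_cases k <;> simp

theorem inner_symm (f g : CuspForm (Gamma0 N) 2) : conj (inner f g) = inner g f := by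
  rw [inner, inner, ← mean_conj]
  exact congrArg _ (funext fun z => (petersson_symm 2 f g z).symm)

include hl hN in
/-- **The good Hecke operators are symmetric.** -/
theorem inner_heckeTLin (f g : CuspForm (Gamma0 N) 2) :
    inner (CuspForm.heckeTLin 2 hl hN f) g = inner f (CuspForm.heckeTLin 2 hl hN g) := by
  have : NeZero (aux N ℓ) := ⟨by simp [aux, hl.ne_zero, NeZero.ne N]⟩
  have hdvd : N ∣ aux N ℓ := ⟨3 * ℓ, by simp [aux]; ring⟩
  have hT : ∀ j : ℕ, (ModularGroup.T ^ (j : ℤ) : Γ₁) ∈ Gamma0 N := fun j => by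
    simp [Gamma0_mem, ModularGroup.coe_T_zpow, -zpow_natCast]
  have hB1 := fun (f g : CuspForm (Gamma0 N) 2) j => (nice_form f).bdd (nice_mat hl.ne_zero j g)
  have hB2 := fun (f g : CuspForm (Gamma0 N) 2) => (nice_form f).bdd (nice_diag hl.ne_zero g)
  have hright : ∀ f g : CuspForm (Gamma0 N) 2, inner f (CuspForm.heckeTLin 2 hl hN g) =
      (ℓ : ℂ) * mean (Gamma (aux N ℓ)) (petersson 2 f ((⇑g) ∣[(2 : ℤ)] ModularForm.heckeMatrix ℓ 0)) +
        mean (Gamma (aux N ℓ)) (petersson 2 f ((⇑g) ∣[(2 : ℤ)] ModularForm.heckeDiagMatrix ℓ)) := by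
    intro f g
    rw [inner_eq_mean hdvd]
    have hsum : petersson 2 f (CuspForm.heckeTLin 2 hl hN g) = fun z =>
        (∑ j ∈ Finset.range ℓ, petersson 2 f ((⇑g) ∣[(2 : ℤ)] ModularForm.heckeMatrix ℓ j) z) +
          petersson 2 f ((⇑g) ∣[(2 : ℤ)] ModularForm.heckeDiagMatrix ℓ) z := by
      funext z
      simp only [petersson, CuspForm.coe_heckeTLin_apply, ModularForm.heckeT_def, Pi.add_apply,
        Finset.sum_apply, Finset.mul_sum, Finset.sum_mul, mul_add, add_mul]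
    have hj : ∀ j, mean (Gamma (aux N ℓ))
        (petersson 2 f ((⇑g) ∣[(2 : ℤ)] ModularForm.heckeMatrix ℓ j)) =
        mean (Gamma (aux N ℓ)) (petersson 2 f ((⇑g) ∣[(2 : ℤ)] ModularForm.heckeMatrix ℓ 0)) := by
      intro j
      have hpt : petersson 2 f ((⇑g) ∣[(2 : ℤ)] ModularForm.heckeMatrix ℓ j) = fun z =>
          petersson 2 f ((⇑g) ∣[(2 : ℤ)] ModularForm.heckeMatrix ℓ 0)
            ((ModularGroup.T ^ (j : ℤ) : Γ₁) • z) := by
        funext z
        rw [← petersson_slash_SL, slash_sl_eq f (hT j), ← slash_mat_eq hl.ne_zero]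
      have := Gamma_normal (aux N ℓ)
      rw [hpt, mean_comp_sl]
      exact fun x hx z => petersson_sl_smul (slash_sl_eq f (Gamma_le_Gamma0 hdvd hx))
        (slash_mat_slash hl.ne_zero g hx) z
    have hBsum : Bdd fun z => ∑ j ∈ Finset.range ℓ,
        petersson 2 f ((⇑g) ∣[(2 : ℤ)] ModularForm.heckeMatrix ℓ j) z := by
      refine ⟨Finset.measurable_sum _ fun j _ => (hB1 f g j).meas, ?_⟩
      choose C hC using fun j => (hB1 f g j).bound
      exact ⟨∑ j ∈ Finset.range ℓ, C j, fun z =>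
        (norm_sum_le _ _).trans (Finset.sum_le_sum fun j _ => hC j z)⟩
    rw [hsum, mean_add hBsum (hB2 f g), mean_sum _ (hB1 f g), Finset.sum_congr rfl fun j _ => hj j,
      Finset.sum_const, Finset.card_range, nsmul_eq_mul]
  have hA : ∀ f g : CuspForm (Gamma0 N) 2,
      conj (mean (Gamma (aux N ℓ)) (petersson 2 g ((⇑f) ∣[(2 : ℤ)] ModularForm.heckeMatrix ℓ 0))) =
        mean (Gamma (aux N ℓ)) (petersson 2 f ((⇑g) ∣[(2 : ℤ)] ModularForm.heckeDiagMatrix ℓ)) := by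
    intro f g
    rw [← mean_conj, ← mean_mat_left hl.ne_zero]
    exact congrArg _ (funext fun z => (petersson_symm 2 _ _ z).symm)
  rw [hright, ← inner_symm, hright, map_add, map_mul, map_natCast, hA,
    ← mean_mat_right hl hN g f, hA, mean_mat_right hl hN f g]

/-- The Petersson form is positive. -/
theorem inner_self_re_nonneg (f : CuspForm (Gamma0 N) 2) : 0 ≤ (inner f f).re ∧ (inner f f).im = 0 := by
  have := Fintype.ofFinite (Γ₁ ⧸ Gamma0 N)
  have h : ∀ z, petersson 2 f f z = ((Complex.normSq (f z) * z.im ^ (2 : ℤ) : ℝ) : ℂ) := fun z => by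
    simp [petersson, Complex.normSq_eq_conj_mul_self]
  have hr : inner f f = (((∑ x : Γ₁ ⧸ Gamma0 N, ∫ z in fdo, Complex.normSq (f ((Quotient.out x)⁻¹ • z)) *
      ((Quotient.out x)⁻¹ • z).im ^ (2 : ℤ)) / Nat.card (Γ₁ ⧸ Gamma0 N) : ℝ) : ℂ) := by
    simp only [inner, mean, avg, finsum_eq_sum_of_fintype, h, integral_complex_ofReal]
    push_cast
    rfl
  rw [hr, Complex.ofReal_re, Complex.ofReal_im]
  exact ⟨div_nonneg (Finset.sum_nonneg fun x _ => setIntegral_nonneg isOpen_fdo.measurableSet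
    fun z _ => mul_nonneg (Complex.normSq_nonneg _) (zpow_nonneg (im_pos _).le _)) (Nat.cast_nonneg _),
    rfl⟩

/-- The Petersson form is definite. -/
theorem eq_zero_of_inner_self {f : CuspForm (Gamma0 N) 2} (h0 : inner f f = 0) : f = 0 := by
  have := Fintype.ofFinite (Γ₁ ⧸ Gamma0 N)
  let r : ℍ → ℝ := fun z => Complex.normSq (f z) * z.im ^ (2 : ℤ)
  have hP : petersson 2 f f = fun z => (r z : ℂ) := funext fun z => by
    simp [r, petersson, Complex.normSq_eq_conj_mul_self]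
  have hr0 : ∀ z, 0 ≤ r z := fun z =>
    mul_nonneg (Complex.normSq_nonneg _) (zpow_nonneg (im_pos z).le _)
  have hrc : Continuous r :=
    (Complex.continuous_normSq.comp (nice_form f).cont).mul
      (continuous_im.zpow₀ 2 fun z => .inl z.im_ne_zero)
  have hBr : Bdd fun z => (r z : ℂ) := hP ▸ (nice_form f).bdd (nice_form f)
  have hsum : (∑ x : Γ₁ ⧸ Gamma0 N, ∫ z in fdo, r ((Quotient.out x)⁻¹ • z)) = 0 := by
    rw [inner, hP, mean, avg, finsum_eq_sum_of_fintype, div_eq_zero_iff,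
      or_iff_left (Nat.cast_ne_zero.mpr Nat.card_pos.ne')] at h0
    simp only [integral_complex_ofReal] at h0
    exact_mod_cast h0
  have hzero : ∀ x : Γ₁ ⧸ Gamma0 N, ∀ z ∈ fd, r ((Quotient.out x)⁻¹ • z) = 0 := by
    intro x
    have hx := (Finset.sum_eq_zero_iff_of_nonneg fun y _ =>
      setIntegral_nonneg isOpen_fdo.measurableSet fun z _ => hr0 _).mp hsum x (Finset.mem_univ x)
    have hc : Continuous fun z => r ((Quotient.out x)⁻¹ • z) := by
      simp only [sl_smul_eq]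
      exact hrc.comp (continuous_const_smul _)
    have hint : IntegrableOn (fun z => r ((Quotient.out x)⁻¹ • z)) fdo := by
      have h := ((hBr.comp (measurable_const_smul (Quotient.out x)⁻¹)).integrableOn_fdo).re
      exact h
    rw [setIntegral_eq_zero_iff_of_nonneg_ae (Filter.Eventually.of_forall fun z => hr0 _) hint] at hx
    have hon := Measure.eqOn_open_of_ae_eq hx isOpen_fdo hc.continuousOn continuous_const.continuousOn
    rw [fd_eq_closure_fdo]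
    exact fun z hz => hon.closure hc continuous_const hz
  ext w
  obtain ⟨h, hh⟩ := exists_smul_mem_fd w
  have h1 := hzero (h : Γ₁ ⧸ Gamma0 N) _ hh
  have h2 := apply_out_inv (G := Gamma0 N) (F := petersson 2 f f)
    (fun g hg z => petersson_sl_smul (slash_sl_eq f hg) (slash_sl_eq f hg) z) (h := h) rfl (h • w)
  rw [inv_smul_smul, hP] at h2
  simp only [h1, Complex.ofReal_zero] at h2
  have h3 : r w = 0 := by exact_mod_cast h2.symm
  rcases mul_eq_zero.mp h3 with h4 | h4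
  · simpa using Complex.normSq_eq_zero.mp h4
  · exact absurd h4 (zpow_ne_zero _ w.im_ne_zero)

end FA.Petersson
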