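import Mathlib.Analysis.Complex.UpperHalfPlane.Measure
import Mathlib.NumberTheory.Modular
import Mathlib.NumberTheory.ModularForms.CongruenceSubgroups
import Mathlib.MeasureTheory.Group.FundamentalDomain
import Mathlib.MeasureTheory.Measure.Lebesgue.Complex
import Mathlib.MeasureTheory.Measure.Haar.NormedSpace
import Mathlib.Analysis.SpecialFunctions.ImproperIntegrals

/-!
# Averages over fundamental domains of subgroups of finite index of the modular group

For a subgroup `G` of finite index and a bounded measurable `G`-invariant function `F` the average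
over the cosets of the integrals over translates of the standard fundamental domain does not
depend on `G`, and is invariant under conjugations between such subgroups.
-/

set_option autoImplicit false

noncomputable section

open MeasureTheory UpperHalfPlane ModularGroup Matrix.SpecialLinearGroup
open scoped MatrixGroups Modular Pointwise ENNReal

namespace FA.Petersson

local notation "Γ₁" => SL(2, ℤ)

theorem sl_smul_eq (g : Γ₁) (z : ℍ) : g • z = (mapGL ℝ g : GL (Fin 2) ℝ) • z := rfl

instance : Countable Γ₁ :=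
  haveI : Countable (Matrix (Fin 2) (Fin 2) ℤ) := inferInstanceAs (Countable (Fin 2 → Fin 2 → ℤ))
  inferInstanceAs (Countable {A : Matrix (Fin 2) (Fin 2) ℤ // A.det = 1})

instance : MeasurableConstSMul (GL (Fin 2) ℝ) ℍ :=
  ⟨fun g => (continuous_const_smul g).measurable⟩

instance : MeasurableConstSMul Γ₁ ℍ :=
  ⟨fun g => by simpa only [sl_smul_eq] using
    (measurable_const_smul (mapGL ℝ g) : Measurable fun z : ℍ => (mapGL ℝ g : GL (Fin 2) ℝ) • z)⟩

instance : SMulInvariantMeasure Γ₁ ℍ volume :=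
  ⟨fun g s hs => by
    simpa only [sl_smul_eq] using
      SMulInvariantMeasure.measure_preimage_smul (μ := (volume : Measure ℍ)) (mapGL ℝ g) hs⟩

instance : Measure.IsOpenPosMeasure (volume : Measure ℍ) := by
  have h : Measure.IsOpenPosMeasure ((volume : Measure ℂ).comap UpperHalfPlane.coe) := ⟨fun U hU hne => by
    rw [measurableEmbedding_coe.comap_apply]
    exact ((isOpenEmbedding_coe.isOpenMap U hU).measure_pos _ (hne.image _)).ne'⟩
  refine Measure.AbsolutelyContinuous.isOpenPosMeasure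
    (μ := (volume : Measure ℂ).comap UpperHalfPlane.coe) ?_
  rw [volume_def]
  refine withDensity_absolutelyContinuous' ?_ (Filter.Eventually.of_forall fun z => ?_)
  · have hc : Continuous fun z : ℍ => NNReal.mk z.im z.im_pos.le := continuous_im.subtype_mk _
    exact ((measurable_const.div hc.measurable).pow_const 2).coe_nnreal_ennreal.aemeasurable
  · exact ENNReal.coe_ne_zero.mpr
      (pow_ne_zero _ (div_ne_zero one_ne_zero (NNReal.ne_iff.mp z.im_ne_zero)))

/-- Vertical lines are null. -/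
theorem volume_re_eq (a : ℝ) : (volume : Measure ℂ) {z : ℂ | z.re = a} = 0 := by
  have h := Complex.volume_preserving_equiv_real_prod.measure_preimage
    (s := ({a} ×ˢ Set.univ : Set (ℝ × ℝ)))
    ((measurableSet_singleton a).prod MeasurableSet.univ).nullMeasurableSet
  rw [Measure.volume_eq_prod, Measure.prod_prod, Real.volume_singleton, zero_mul] at h
  convert h using 2
  ext z
  simp [Complex.measurableEquivRealProd]

theorem volume_fd_diff_fdo : volume (fd \ fdo) = 0 := by
  rw [volume_eq_lintegral]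
  refine setLIntegral_measure_zero _ _ (measure_mono_null (t := ({z : ℂ | z.re = 1 / 2} ∪
    {z : ℂ | z.re = -(1 / 2)}) ∪ Metric.sphere 0 1) ?_ ?_)
  · rintro _ ⟨z, ⟨⟨h1, h2⟩, h3⟩, rfl⟩
    rcases h1.lt_or_eq with h1' | h1'
    · left
      rcases h2.lt_or_eq with h2' | h2'
      · exact absurd ⟨h1', h2'⟩ h3
      · rcases abs_choice z.re with h | h <;> rw [h] at h2'
        · left; simpa using h2'
        · right; simp only [Set.mem_setOf_eq, coe_re]; linarith
    · right
      rw [mem_sphere_zero_iff_norm, ← Complex.sq_norm] at *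
      nlinarith [norm_nonneg (z : ℂ)]
  · simp [measure_union_null_iff, volume_re_eq, Measure.addHaar_sphere]

theorem volume_fdo_lt_top : volume fdo < ∞ := by
  rw [volume_eq_lintegral]
  have hsub : UpperHalfPlane.coe '' fdo ⊆
      Complex.measurableEquivRealProd ⁻¹' (Set.Icc (-1) 1 ×ˢ Set.Ioi (1 / 2 : ℝ)) := by
    rintro _ ⟨z, hz, rfl⟩
    have h1 := abs_le.mp hz.2.le
    have h2 := three_lt_four_mul_im_sq_of_mem_fdo hz
    have h3 : 1 / 2 < z.im := by nlinarith [z.im_pos]
    simp [Complex.measurableEquivRealProd]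
    exact ⟨⟨by linarith [h1.1], by linarith [h1.2]⟩, by linarith⟩
  refine lt_of_le_of_lt (lintegral_mono_set hsub) ?_
  have hmp := Complex.volume_preserving_equiv_real_prod
  have := hmp.setLIntegral_comp_preimage_emb Complex.measurableEquivRealProd.measurableEmbedding
    (fun p : ℝ × ℝ => ((((1 / ‖p.2‖₊) ^ 2 : NNReal)) : ℝ≥0∞)) (Set.Icc (-1) 1 ×ˢ Set.Ioi (1 / 2 : ℝ))
  simp only [Complex.measurableEquivRealProd_apply] at this
  rw [this, Measure.volume_eq_prod, ← Measure.prod_restrict,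
    lintegral_prod _ (by fun_prop)]
  dsimp only
  rw [lintegral_const, Measure.restrict_apply_univ, Real.volume_Icc]
  refine ENNReal.mul_lt_top ?_ ENNReal.ofReal_lt_top
  have hint : IntegrableOn (fun y : ℝ => y ^ (-2 : ℝ)) (Set.Ioi (1 / 2)) :=
    integrableOn_Ioi_rpow_of_lt (by norm_num) (by norm_num)
  refine lt_of_eq_of_lt ?_ hint.2
  refine setLIntegral_congr_fun measurableSet_Ioi fun y hy => ?_
  have hy0 : 0 < y := lt_trans (by norm_num) hy
  show (((1 / ‖y‖₊) ^ 2 : NNReal) : ℝ≥0∞) = (‖y ^ (-2 : ℝ)‖₊ : ℝ≥0∞)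
  congr 1
  ext
  simp [Real.rpow_neg hy0.le, abs_of_pos hy0, inv_pow]

instance : IsFiniteMeasure (volume.restrict fdo : Measure ℍ) :=
  isFiniteMeasure_restrict.mpr volume_fdo_lt_top.ne

theorem measure_fdo_pos : 0 < volume fdo := by
  refine isOpen_fdo.measure_pos volume ?_
  rw [← closure_nonempty_iff, ← fd_eq_closure_fdo]
  exact ⟨_, I_mem_fd⟩

section Sign

variable (G : Subgroup Γ₁)

/-- `G` together with its negatives. -/
def withNeg : Subgroup Γ₁ where
  carrier := {g | g ∈ G ∨ -g ∈ G}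
  mul_mem' {a b} ha hb := by
    rcases ha with ha | ha <;> rcases hb with hb | hb
    · exact .inl (mul_mem ha hb)
    · exact .inr (by simpa using mul_mem ha hb)
    · exact .inr (by simpa using mul_mem ha hb)
    · exact .inl (by simpa using mul_mem ha hb)
  one_mem' := .inl (one_mem G)
  inv_mem' {a} ha := by
    rcases ha with ha | ha
    · exact .inl (inv_mem ha)
    · refine .inr ?_
      have h := inv_mem ha
      rwa [show (-a)⁻¹ = -a⁻¹ from inv_eq_of_mul_eq_one_right (by simp)] at h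

theorem le_withNeg : G ≤ withNeg G := fun _ h => .inl h

instance [G.FiniteIndex] : (withNeg G).FiniteIndex := Subgroup.finiteIndex_of_le (le_withNeg G)

theorem neg_smul_sl (g : Γ₁) (z : ℍ) : (-g) • z = g • z := by
  ext
  simp only [coe_specialLinearGroup_apply]
  simp
  exact (congrArg₂ (· / ·) (neg_add _ _).symm (neg_add _ _).symm).trans (neg_div_neg_eq _ _)

variable [G.FiniteIndex]

/-- The union of translates of the open standard domain over the cosets of `± G`. -/
def dom : Set ℍ := ⋃ x : Γ₁ ⧸ withNeg G, (Quotient.out x)⁻¹ • fdo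

theorem measurableSet_smul_fdo (g : Γ₁) : MeasurableSet (g • fdo : Set ℍ) :=
  isOpen_fdo.measurableSet.const_smul g

/-- Translates of the open standard domain meet only for a sign. -/
theorem eq_or_eq_neg_of_mem {g h : Γ₁} {z : ℍ} (hg : z ∈ g • fdo) (hh : z ∈ h • fdo) :
    g = h ∨ g = -h := by
  rw [Set.mem_smul_set_iff_inv_smul_mem] at hg hh
  have h' : (g⁻¹ * h) • (h⁻¹ • z) ∈ fdo := by rwa [smul_smul, mul_assoc, mul_inv_cancel, mul_one]
  rcases eq_one_or_neg_one_of_mem_fdo_mem_fdo hh h' with e | e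
  · exact .inl (inv_mul_eq_one.mp e)
  · right
    have e2 := congrArg (g * ·) e
    simp only [mul_inv_cancel_left, mul_neg, mul_one] at e2
    rw [e2, neg_neg]

theorem disjoint_pieces : Pairwise (Function.onFun Disjoint
    fun x : Γ₁ ⧸ withNeg G => ((Quotient.out x)⁻¹ • fdo : Set ℍ)) := by
  intro x y hxy
  refine Set.disjoint_left.mpr fun z hx hy => hxy ?_
  rw [← QuotientGroup.out_eq' x, ← QuotientGroup.out_eq' y, QuotientGroup.eq]
  rcases eq_or_eq_neg_of_mem hx hy with h | h
  · rw [inv_inj.mp h]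
    exact .inl (by simp)
  · refine .inr ?_
    rw [h]
    simp

variable {G} in
theorem isFundamentalDomain_dom (hG : (-1 : Γ₁) ∉ G) :
    IsFundamentalDomain G (dom G) (volume : Measure ℍ) := by
  refine ⟨(MeasurableSet.iUnion fun x => measurableSet_smul_fdo _).nullMeasurableSet, ?_, ?_⟩
  · have hnull : volume (⋃ h : Γ₁, h • (fd \ fdo) : Set ℍ) = 0 :=
      measure_iUnion_null fun h => by rw [measure_smul]; exact volume_fd_diff_fdo
    rw [Filter.eventually_iff, mem_ae_iff]
    refine measure_mono_null (fun z hz => ?_) hnull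
    obtain ⟨h, hh⟩ := exists_smul_mem_fd z
    refine Set.mem_iUnion.mpr ⟨h⁻¹, ?_⟩
    rw [Set.mem_smul_set_iff_inv_smul_mem, inv_inv]
    refine ⟨hh, fun ho => hz ?_⟩
    set x : Γ₁ ⧸ withNeg G := (h : Γ₁ ⧸ withNeg G)
    have hx : (Quotient.out x)⁻¹ * h ∈ withNeg G :=
      QuotientGroup.eq.mp (QuotientGroup.out_eq' x)
    rcases hx with hg | hg
    · refine ⟨⟨_, hg⟩, Set.mem_iUnion.mpr ⟨x, ?_⟩⟩
      rw [Set.mem_smul_set_iff_inv_smul_mem, inv_inv, Subgroup.smul_def, smul_smul,
        mul_inv_cancel_left]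
      exact ho
    · refine ⟨⟨_, hg⟩, Set.mem_iUnion.mpr ⟨x, ?_⟩⟩
      rw [Set.mem_smul_set_iff_inv_smul_mem, inv_inv, Subgroup.smul_def, neg_smul_sl, smul_smul,
        mul_inv_cancel_left]
      exact ho
  · intro a b hab
    refine (Set.disjoint_left.mpr fun z ha hb => hab ?_).aedisjoint
    obtain ⟨u, hu, rfl⟩ := ha
    obtain ⟨v, hv, hvu⟩ := hb
    obtain ⟨x, hx⟩ := Set.mem_iUnion.mp hu
    obtain ⟨y, hy⟩ := Set.mem_iUnion.mp hv
    simp only [Subgroup.smul_def] at hvu
    have h1 : (a : Γ₁) • u ∈ ((a : Γ₁) * (Quotient.out x)⁻¹) • fdo := by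
      rw [mul_smul]; exact Set.smul_mem_smul_set hx
    have h2 : (a : Γ₁) • u ∈ ((b : Γ₁) * (Quotient.out y)⁻¹) • fdo := by
      rw [← hvu, mul_smul]; exact Set.smul_mem_smul_set hy
    have e := eq_or_eq_neg_of_mem h1 h2
    have hxy : x = y := by
      rw [← QuotientGroup.out_eq' x, ← QuotientGroup.out_eq' y, QuotientGroup.eq]
      rcases e with e | e
      · refine .inl ?_
        rw [show (Quotient.out x)⁻¹ * Quotient.out y = (a : Γ₁)⁻¹ * b by
          rw [eq_inv_mul_iff_mul_eq, ← mul_assoc, e, inv_mul_cancel_right]]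
        exact mul_mem (inv_mem a.2) b.2
      · refine .inr ?_
        rw [show -((Quotient.out x)⁻¹ * Quotient.out y) = (a : Γ₁)⁻¹ * b by
          rw [eq_inv_mul_iff_mul_eq, mul_neg, ← mul_assoc, e, neg_mul, inv_mul_cancel_right,
            neg_neg]]
        exact mul_mem (inv_mem a.2) b.2
    subst hxy
    rcases e with e | e
    · exact Subtype.ext (mul_right_cancel e)
    · exfalso
      rw [← neg_mul] at e
      refine hG ?_
      have h3 := mul_right_cancel e
      have h4 : (-1 : Γ₁) = (a : Γ₁) * (b : Γ₁)⁻¹ := by rw [h3, neg_mul, mul_inv_cancel]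
      rw [h4]
      exact mul_mem a.2 (inv_mem b.2)

end Sign

section Avg

/-- The average of a function on a finite type. -/
def avg {α : Type*} (φ : α → ℂ) : ℂ := (∑ᶠ x, φ x) / Nat.card α

theorem avg_comp_equiv {α β : Type*} (e : α ≃ β) (φ : β → ℂ) : avg (φ ∘ e) = avg φ := by
  rw [avg, avg, Nat.card_congr e]
  congr 1
  exact finsum_comp_equiv e

theorem avg_comp_fst {α β : Type*} [Finite α] [Finite β] [Nonempty β] (φ : α → ℂ) :
    avg (fun x : α × β => φ x.1) = avg φ := by
  have := Fintype.ofFinite α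
  have := Fintype.ofFinite β
  rw [avg, avg, finsum_eq_sum_of_fintype, finsum_eq_sum_of_fintype, Fintype.sum_prod_type,
    Nat.card_prod]
  simp only [Finset.sum_const, Finset.card_univ, nsmul_eq_mul, ← Finset.mul_sum,
    Nat.card_eq_fintype_card, Nat.cast_mul]
  rw [mul_comm (Fintype.card α : ℂ), mul_div_mul_left _ _ (Nat.cast_ne_zero.mpr Fintype.card_ne_zero)]

/-- The average over the cosets of the integrals over the translated standard domains. -/
def mean (G : Subgroup Γ₁) (F : ℍ → ℂ) : ℂ :=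
  avg fun x : Γ₁ ⧸ G => ∫ z in fdo, F ((Quotient.out x)⁻¹ • z)

theorem apply_out_inv {G : Subgroup Γ₁} {F : ℍ → ℂ} (hF : ∀ g ∈ G, ∀ z, F (g • z) = F z) {h : Γ₁}
    {x : Γ₁ ⧸ G} (hx : (h : Γ₁ ⧸ G) = x) (z : ℍ) : F ((Quotient.out x)⁻¹ • z) = F (h⁻¹ • z) := by
  have hm : (Quotient.out x)⁻¹ * h ∈ G := QuotientGroup.eq.mp ((QuotientGroup.out_eq' x).trans hx.symm)
  rw [← hF _ hm (h⁻¹ • z), smul_smul, mul_inv_cancel_right]

/-- The mean does not depend on the group. -/
theorem mean_eq_of_le {G K : Subgroup Γ₁} [G.FiniteIndex] (h : G ≤ K) {F : ℍ → ℂ}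
    (hF : ∀ g ∈ K, ∀ z, F (g • z) = F z) : mean G F = mean K F := by
  have : K.FiniteIndex := Subgroup.finiteIndex_of_le h
  have hnorm : ∀ x : Γ₁ ⧸ G, (fun z => F ((Quotient.out x)⁻¹ • z)) =
      fun z => F ((Quotient.out (Subgroup.quotientEquivProdOfLE h x).1)⁻¹ • z) := fun x =>
    funext fun z => (apply_out_inv hF (by
      conv_rhs => rw [← QuotientGroup.out_eq' x]
      rfl) z).symm
  unfold mean
  rw [funext fun x : Γ₁ ⧸ G => congrArg (fun f : ℍ → ℂ => ∫ z in fdo, f z) (hnorm x),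
    show (fun x : Γ₁ ⧸ G => ∫ z in fdo, F ((Quotient.out (Subgroup.quotientEquivProdOfLE h x).1)⁻¹ • z)) =
      (fun y : (Γ₁ ⧸ K) × (K ⧸ G.subgroupOf K) => ∫ z in fdo, F ((Quotient.out y.1)⁻¹ • z)) ∘
        Subgroup.quotientEquivProdOfLE h from rfl, avg_comp_equiv]
  exact avg_comp_fst (fun x : Γ₁ ⧸ K => ∫ z in fdo, F ((Quotient.out x)⁻¹ • z))

/-- Bounded measurable functions. -/
structure Bdd (F : ℍ → ℂ) : Prop where
  meas : Measurable F
  bound : ∃ C : ℝ, ∀ z, ‖F z‖ ≤ C

theorem Bdd.comp {F : ℍ → ℂ} (h : Bdd F) {φ : ℍ → ℍ} (hφ : Measurable φ) : Bdd (F ∘ φ) :=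
  ⟨h.meas.comp hφ, h.bound.imp fun _ hC z => hC (φ z)⟩

theorem Bdd.integrableOn_fdo {F : ℍ → ℂ} (h : Bdd F) : IntegrableOn F fdo := by
  obtain ⟨C, hC⟩ := h.bound
  exact Integrable.of_bound h.meas.aestronglyMeasurable C (Filter.Eventually.of_forall hC)

theorem integrableOn_smul_fdo {F : ℍ → ℂ} (h : Bdd F) (g : Γ₁) : IntegrableOn F (g • fdo) := by
  rw [← Set.image_smul, (measurePreserving_smul g volume).integrableOn_image
    (measurableEmbedding_const_smul g)]
  exact (h.comp (measurable_const_smul g)).integrableOn_fdo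

theorem setIntegral_dom {G : Subgroup Γ₁} [G.FiniteIndex] {F : ℍ → ℂ} (hB : Bdd F) :
    ∫ z in dom G, F z = ∑ᶠ x : Γ₁ ⧸ withNeg G, ∫ z in fdo, F ((Quotient.out x)⁻¹ • z) := by
  have := Fintype.ofFinite (Γ₁ ⧸ withNeg G)
  rw [finsum_eq_sum_of_fintype, dom, integral_iUnion_fintype (fun x => measurableSet_smul_fdo _)
    (disjoint_pieces G) (fun x => integrableOn_smul_fdo hB _)]
  refine Finset.sum_congr rfl fun x _ => ?_
  rw [← Set.image_smul, (measurePreserving_smul (Quotient.out x)⁻¹ volume).setIntegral_image_emb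
    (measurableEmbedding_const_smul _)]

theorem setIntegral_dom_eq_mean {G : Subgroup Γ₁} [G.FiniteIndex] {F : ℍ → ℂ}
    (hF : ∀ g ∈ G, ∀ z, F (g • z) = F z) (hB : Bdd F) :
    ∫ z in dom G, F z = Nat.card (Γ₁ ⧸ withNeg G) * mean G F := by
  rw [setIntegral_dom hB, mean_eq_of_le (le_withNeg G) (fun g hg z => ?_), mean, avg, mul_comm,
    div_mul_cancel₀ _ (Nat.cast_ne_zero.mpr Nat.card_pos.ne')]
  rcases hg with hg | hg
  · exact hF g hg z
  · rw [← neg_smul_sl g]; exact hF _ hg z

/-- **Invariance of the mean under conjugation.** -/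
theorem mean_comp_smul {G G' : Subgroup Γ₁} [G.FiniteIndex] [G'.FiniteIndex] (hG : (-1 : Γ₁) ∉ G)
    (hG' : (-1 : Γ₁) ∉ G') (α : GL (Fin 2) ℝ) (e : G' ≃ G)
    (he : ∀ (g : G') (z : ℍ), α • ((e g : Γ₁) • z) = (g : Γ₁) • (α • z)) {F : ℍ → ℂ}
    (hF : ∀ g ∈ G', ∀ z, F (g • z) = F z) (hB : Bdd F) :
    mean G (fun z => F (α • z)) = mean G' F := by
  have hα : IsFundamentalDomain G' (MulAction.toPerm α '' dom G) (volume : Measure ℍ) :=
    (isFundamentalDomain_dom hG).image_of_equiv (MulAction.toPerm α)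
      (measurePreserving_smul α⁻¹ volume).quasiMeasurePreserving e fun g z => he g z
  have key : ∀ F : ℍ → ℂ, (∀ g ∈ G', ∀ z, F (g • z) = F z) → Bdd F →
      (Nat.card (Γ₁ ⧸ withNeg G) : ℂ) * mean G (fun z => F (α • z)) =
        Nat.card (Γ₁ ⧸ withNeg G') * mean G' F := fun F hF hB => by
    have hFα : ∀ g ∈ G, ∀ z, F (α • (g • z)) = F (α • z) := fun g hg z => by
      have h := he (e.symm ⟨g, hg⟩) z
      rw [e.apply_symm_apply] at h
      rw [h]
      exact hF _ (e.symm ⟨g, hg⟩).2 _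
    have h1 := setIntegral_dom_eq_mean hFα (hB.comp (measurable_const_smul α))
    have h2 := setIntegral_dom_eq_mean hF hB
    simp only [Function.comp_def] at h1
    rw [← h1, ← h2, ← hα.setIntegral_eq (isFundamentalDomain_dom hG') (fun g z => hF _ g.2 z),
      show (MulAction.toPerm α '' dom G : Set ℍ) = (fun z => α • z) '' dom G from rfl,
      (measurePreserving_smul α volume).setIntegral_image_emb (measurableEmbedding_const_smul α)]
  have hvol : ∀ K : Subgroup Γ₁, [K.FiniteIndex] →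
      mean K (fun _ => (1 : ℂ)) = ((volume fdo).toReal : ℂ) := fun K _ => by
    have := Fintype.ofFinite (Γ₁ ⧸ K)
    have hc : (Fintype.card (Γ₁ ⧸ K) : ℂ) ≠ 0 := Nat.cast_ne_zero.mpr Fintype.card_ne_zero
    simp only [mean, avg, finsum_eq_sum_of_fintype, setIntegral_const, Measure.real,
      Complex.real_smul, mul_one, Finset.sum_const, Finset.card_univ, nsmul_eq_mul,
      Nat.card_eq_fintype_card]
    rw [mul_comm, mul_div_assoc, div_self hc, mul_one]
  have hv0 : ((volume fdo).toReal : ℂ) ≠ 0 := by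
    exact_mod_cast (ENNReal.toReal_pos measure_fdo_pos.ne' volume_fdo_lt_top.ne).ne'
  have h0 := key (fun _ => 1) (fun _ _ _ => rfl) ⟨measurable_const, 1, fun _ => by simp⟩
  rw [hvol G, hvol G'] at h0
  have h1 := key F hF hB
  rw [mul_right_cancel₀ hv0 h0] at h1
  exact mul_left_cancel₀ (Nat.cast_ne_zero.mpr Nat.card_pos.ne') h1

/-- Invariance of the mean under the modular group at a normal level. -/
theorem mean_comp_sl {G : Subgroup Γ₁} [G.Normal] {F : ℍ → ℂ}
    (hF : ∀ g ∈ G, ∀ z, F (g • z) = F z) (γ : Γ₁) : mean G (fun z => F (γ • z)) = mean G F := by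
  conv_rhs => rw [mean, ← avg_comp_equiv (Equiv.mulRight ((γ⁻¹ : Γ₁) : Γ₁ ⧸ G))]
  refine congrArg avg (funext fun x => ?_)
  rw [Function.comp_apply]
  congr 1
  funext z
  rw [apply_out_inv hF (h := Quotient.out x * γ⁻¹) (by
    rw [Equiv.coe_mulRight, QuotientGroup.mk_mul, QuotientGroup.out_eq']), mul_inv_rev, inv_inv,
    mul_smul]

end Avg

end FA.Petersson
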